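import Fermat.Agent.S26.H605.Twist
import Fermat.Agent.S26.Pic.Theory

/-!
# Row S26, block PIC, leaf P5 (helper605): triviality of a pulled-back class

`cl (f^* c) = 0` iff the pull-back of the line bundle of `c` has a nowhere vanishing global
section (a twisted family of units).
-/

set_option autoImplicit false

open AlgebraicGeometry CategoryTheory TopologicalSpace Opposite

universe u

namespace Fermat.Agent.S26.H605

noncomputable section

variable {Y' Y : Scheme.{u}} (f : Y' ⟶ Y) (c : Pic.Cocycle Y)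

/-- A twisted family of units trivialises the pulled-back class. -/
theorem cl_pullback_eq_zero_of_twisted (σ : ∀ y : Y, Γ(Y', f ⁻¹ᵁ c.U y)) (hσ : IsTw f c σ)
    (hu : ∀ y, IsUnit (σ y)) : Pic.cl (c.pullback f) = 0 := by
  rw [Pic.cl_eq_zero_iff]
  refine ⟨fun y' => f ⁻¹ᵁ c.U (f y'), fun y' => c.mem (f y'), fun _ => le_rfl,
    fun y' => (hu (f y')).unit, fun x' y' => ?_⟩
  apply Units.ext
  simp only [Units.val_mul, coe_res, coe_pull, IsUnit.unit_spec, rr_pl]
  exact hσ.on (f x') (f y') inf_le_left inf_le_right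

/-- A trivialisation of the pulled-back class gives a twisted family of units. -/
theorem exists_twisted_of_cl_pullback_eq_zero (h : Pic.cl (c.pullback f) = 0) :
    ∃ σ : ∀ y : Y, Γ(Y', f ⁻¹ᵁ c.U y), IsTw f c σ ∧ ∀ y, IsUnit (σ y) := by
  rw [Pic.cl_eq_zero_iff] at h
  obtain ⟨V, hV, hc, h, H⟩ := h
  obtain ⟨σ, hσ, -, hu⟩ := exists_twisted (f := f) (c := c) V (fun y' => f y') hc
    (fun y' => ⟨y', hV y'⟩) (fun y' => (h y' : Γ(Y', V y'))) (fun a b => by
      have := congrArg (fun u : Γ(Y', V a ⊓ V b)ˣ => (u : Γ(Y', V a ⊓ V b))) (H a b)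
      simp only [Units.val_mul, coe_res, coe_pull, rr_pl] at this
      exact this)
  exact ⟨σ, hσ, hu fun a => Units.isUnit _⟩

theorem cl_pullback_eq_zero_iff :
    Pic.cl (c.pullback f) = 0 ↔
      ∃ σ : ∀ y : Y, Γ(Y', f ⁻¹ᵁ c.U y), IsTw f c σ ∧ ∀ y, IsUnit (σ y) :=
  ⟨exists_twisted_of_cl_pullback_eq_zero f c,
    fun ⟨σ, hσ, hu⟩ => cl_pullback_eq_zero_of_twisted f c σ hσ hu⟩

end

end Fermat.Agent.S26.H605
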