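import Fermat.Agent.S26.H605.GenTrivCore
import Fermat.Agent.S26.H605.PicTw
import Mathlib.AlgebraicGeometry.Morphisms.Proper
import Mathlib.AlgebraicGeometry.Geometrically.Integral

/-!
# Row S26, block PIC, leaf P5 (helper605): `Stmt.GenericTrivial` for the Čech model

`genericTrivial : Stmt.GenericTrivial Pic.cechPic K` — a class on `X × W` (`X` integral, `W`
proper geometrically integral over `K`) which dies on `Spec K' × W` for a geometric generic point
`Spec K' ⟶ X` dies on `U × W` for a nonempty open `U ⊆ X`.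

Route: flat base change of twisted Čech sections along `Γ(X₀) → K'` (`BCGeom.lean`),
`Γ(Spec K' × W, 𝒪)` is a field, zero locus + closedness of `X × W → X`
(`GenTrivCore.exists_open_twisted`).  Neither `IsAlgClosed` nor `LocallyOfFiniteType x` is used.
-/

set_option autoImplicit false

open AlgebraicGeometry CategoryTheory CategoryTheory.Limits TopologicalSpace Opposite

universe u

namespace Fermat.Agent.S26.H605

/-- **P5, generic triviality** for the Čech Picard functor. -/
theorem genericTrivial (K : Type u) [Field K] [IsAlgClosed K] :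
    Stmt.GenericTrivial Pic.cechPic.{u} K := by
  intro X W x w _ _ _ _ N K' _ _ ξ hξ hN
  obtain ⟨c, rfl⟩ := Pic.cl_surjective N
  rw [Pic.map_cl] at hN
  obtain ⟨σ', hσ', hu⟩ := exists_twisted_of_cl_pullback_eq_zero _ c hN
  have H := isPullback_prodMapLeft x w ξ
  haveI : Flat ξ := flat_of_forall_eq_genericPoint ξ hξ
  haveI : IsIntegral (pullback (ξ ≫ x) w) :=
    GeometricallyIntegral.isIntegral_of_subsingleton (pullback.fst (ξ ≫ x) w)
  have hfield : IsField Γ(pullback (ξ ≫ x) w, ⊤) :=
    isField_of_universallyClosed K' (pullback.fst (ξ ≫ x) w)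
  obtain ⟨U, hηU, hU⟩ := exists_open_twisted H (isAffineOpen_top _) (genericPoint X) hξ hfield
    c σ' hσ' hu
  refine ⟨U, ⟨genericPoint X, hηU⟩, ?_⟩
  rw [Pic.map_cl]
  obtain ⟨σ, hσ, hσu⟩ := hU _ (prodMapLeft x (U.ι ≫ x) w U.ι rfl) (fun z => by
    rw [← Scheme.Hom.comp_apply, prodMapLeft_fst, Scheme.Hom.comp_apply]
    exact (pullback.fst (U.ι ≫ x) w z).2)
  exact cl_pullback_eq_zero_of_twisted _ c σ hσ hσu

end Fermat.Agent.S26.H605
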