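import Fermat.Agent.S26.H605.FlatKer
import Mathlib.RingTheory.TensorProduct.Basic

/-!
# Row S26, block PIC, leaf P5 (helper605): flat base change of a twisted Čech kernel

Pure algebra.  `A → R'` flat; finitely many `A`-algebras `B t` with "base changes" `B' t`
(`R' ⊗ B t → B' t` onto), overlaps `C tt` with `R' ⊗ C tt → C' tt` injective, restriction maps
and transition elements `g tt`.  Every twisted-compatible family in `∏ B' t` is an `R'`-linear
combination of images of twisted-compatible families in `∏ B t`.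
-/

set_option autoImplicit false

open TensorProduct

namespace Fermat.Agent.S26.H605

section mulHom

variable {A R' B B' : Type*} [CommRing A] [CommRing R'] [CommRing B] [CommRing B']
  [Algebra A R'] [Algebra A B]

/-- The additive map `R' ⊗[A] B → B'`, `c ⊗ b ↦ q c * π b`. -/
noncomputable def mulHom (q : R' →+* B') (π : B →+* B')
    (h : ∀ a, q (algebraMap A R' a) = π (algebraMap A B a)) : R' ⊗[A] B →+ B' :=
  TensorProduct.liftAddHom
    (AddMonoidHom.mk' (fun c => (AddMonoidHom.mulLeft (q c)).comp π.toAddMonoidHom)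
      (fun c c' => by
        ext b
        simp only [AddMonoidHom.coe_comp, Function.comp_apply, AddMonoidHom.coe_mulLeft,
          AddMonoidHom.add_apply, map_add, add_mul]))
    (fun r c b => by
      simp only [AddMonoidHom.mk'_apply, AddMonoidHom.coe_comp, Function.comp_apply,
        AddMonoidHom.coe_mulLeft, RingHom.toAddMonoidHom_eq_coe, AddMonoidHom.coe_coe,
        Algebra.smul_def, map_mul, h]
      ring)

@[simp] lemma mulHom_tmul (q : R' →+* B') (π : B →+* B')
    (h : ∀ a, q (algebraMap A R' a) = π (algebraMap A B a)) (c : R') (b : B) :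
    mulHom q π h (c ⊗ₜ[A] b) = q c * π b := by
  simp [mulHom]

end mulHom

section Pi

variable {A R' : Type*} [CommRing A] [CommRing R'] [Algebra A R'] [Module.Flat A R']
  {T : Type*} [Fintype T] [DecidableEq T]
  {B B' : T → Type*} [∀ t, CommRing (B t)] [∀ t, CommRing (B' t)] [∀ t, Algebra A (B t)]
  {C C' : T × T → Type*} [∀ tt, CommRing (C tt)] [∀ tt, CommRing (C' tt)]
  [∀ tt, Algebra A (C tt)]
  (qB : ∀ t, R' →+* B' t) (πB : ∀ t, B t →+* B' t)
  (hB : ∀ t a, qB t (algebraMap A R' a) = πB t (algebraMap A (B t) a))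
  (qC : ∀ tt, R' →+* C' tt) (πC : ∀ tt, C tt →+* C' tt)
  (hC : ∀ tt a, qC tt (algebraMap A R' a) = πC tt (algebraMap A (C tt) a))
  (r₁ : ∀ tt : T × T, B tt.1 →ₐ[A] C tt) (r₂ : ∀ tt : T × T, B tt.2 →ₐ[A] C tt)
  (r₁' : ∀ tt : T × T, B' tt.1 →+* C' tt) (r₂' : ∀ tt : T × T, B' tt.2 →+* C' tt)
  (h₁π : ∀ tt b, r₁' tt (πB tt.1 b) = πC tt (r₁ tt b))
  (h₂π : ∀ tt b, r₂' tt (πB tt.2 b) = πC tt (r₂ tt b))
  (h₁q : ∀ tt c, r₁' tt (qB tt.1 c) = qC tt c)
  (h₂q : ∀ tt c, r₂' tt (qB tt.2 c) = qC tt c)
  (g : ∀ tt, C tt)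

include hB hC h₁π h₂π h₁q h₂q in
theorem exists_sum_twisted_of_flat
    (hsurj : ∀ t, Function.Surjective (mulHom (qB t) (πB t) (hB t)))
    (hinj : ∀ tt, Function.Injective (mulHom (qC tt) (πC tt) (hC tt)))
    (e' : ∀ t, B' t)
    (he' : ∀ tt : T × T, r₁' tt (e' tt.1) = πC tt (g tt) * r₂' tt (e' tt.2)) :
    ∃ S : Finset (R' × (∀ t, B t)),
      (∀ i ∈ S, ∀ tt : T × T, r₁ tt (i.2 tt.1) = g tt * r₂ tt (i.2 tt.2)) ∧
      ∀ t, e' t = ∑ i ∈ S, qB t i.1 * πB t (i.2 t) := by
  classical
  -- the Čech differential on `Y`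
  let φ : (∀ t, B t) →ₗ[A] (∀ tt : T × T, C tt) :=
    { toFun := fun m tt => r₁ tt (m tt.1) - g tt * r₂ tt (m tt.2)
      map_add' := fun m m' => by
        ext tt
        simp only [Pi.add_apply, map_add]
        ring
      map_smul' := fun a m => by
        ext tt
        simp only [Pi.smul_apply, RingHom.id_apply, Algebra.smul_def, map_mul, AlgHom.commutes]
        ring }
  -- the Čech differential on `Y'`
  let φ' : (∀ t, B' t) →+ (∀ tt : T × T, C' tt) :=
    AddMonoidHom.mk' (fun m tt => r₁' tt (m tt.1) - πC tt (g tt) * r₂' tt (m tt.2))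
      (fun m m' => by
        ext tt
        simp only [Pi.add_apply, map_add]
        ring)
  let βt : R' ⊗[A] (∀ t, B t) →+ (∀ t, B' t) :=
    AddMonoidHom.mk' (fun z t => mulHom (qB t) (πB t) (hB t)
      (TensorProduct.piRight A A R' B z t))
      (fun z z' => by
        ext t
        simp only [map_add, Pi.add_apply])
  let γt : R' ⊗[A] (∀ tt : T × T, C tt) →+ (∀ tt : T × T, C' tt) :=
    AddMonoidHom.mk' (fun z tt => mulHom (qC tt) (πC tt) (hC tt)
      (TensorProduct.piRight A A R' C z tt))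
      (fun z z' => by
        ext tt
        simp only [map_add, Pi.add_apply])
  have hβt : ∀ (c : R') (m : ∀ t, B t) (t : T), βt (c ⊗ₜ[A] m) t = qB t c * πB t (m t) := by
    intro c m t
    simp only [βt, AddMonoidHom.mk'_apply, TensorProduct.piRight_apply,
      TensorProduct.piRightHom_tmul, mulHom_tmul]
  have hγt : ∀ (c : R') (m : ∀ tt : T × T, C tt) (tt : T × T),
      γt (c ⊗ₜ[A] m) tt = qC tt c * πC tt (m tt) := by
    intro c m tt
    simp only [γt, AddMonoidHom.mk'_apply, TensorProduct.piRight_apply,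
      TensorProduct.piRightHom_tmul, mulHom_tmul]
  have hcomm : ∀ z, φ' (βt z) = γt (φ.lTensor R' z) := by
    intro z
    induction z using TensorProduct.induction_on with
    | zero => simp only [map_zero]
    | add z z' hz hz' => simp only [map_add, hz, hz']
    | tmul c m =>
      ext tt
      rw [LinearMap.lTensor_tmul, hγt]
      simp only [φ', AddMonoidHom.mk'_apply, hβt, map_mul, h₁π, h₂π, h₁q, h₂q, φ,
        LinearMap.coe_mk, AddHom.coe_mk, map_sub]
      ring
  have hβ : Function.Surjective βt := by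
    intro p'
    choose z hz using fun t => hsurj t (p' t)
    refine ⟨(TensorProduct.piRight A A R' B).symm z, ?_⟩
    ext t
    simp only [βt, AddMonoidHom.mk'_apply, LinearEquiv.apply_symm_apply, hz]
  have hγ : Function.Injective γt := by
    intro z z' h
    apply (TensorProduct.piRight A A R' C).injective
    ext tt
    apply hinj tt
    exact congrFun h tt
  have hp' : φ' e' = 0 := by
    ext tt
    simp only [φ', AddMonoidHom.mk'_apply, Pi.zero_apply, he' tt, sub_self]
  obtain ⟨S, hS⟩ := exists_sum_ker_of_flat φ βt γt φ' hcomm hβ hγ e' hp'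
  refine ⟨S.image (fun i => (i.1, (i.2 : ∀ t, B t))), ?_, ?_⟩
  · intro i hi tt
    obtain ⟨j, -, rfl⟩ := Finset.mem_image.mp hi
    have := congrFun (LinearMap.mem_ker.mp j.2.2) tt
    simp only [φ, LinearMap.coe_mk, AddHom.coe_mk, Pi.zero_apply, sub_eq_zero] at this
    exact this
  · intro t
    rw [Finset.sum_image]
    · rw [hS]
      simp only [Finset.sum_apply, hβt]
    · intro i _ j _ hij
      simp only [Prod.mk.injEq] at hij
      exact Prod.ext hij.1 (Subtype.ext hij.2)

end Pi

end Fermat.Agent.S26.H605
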