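import Fermat.Agent.S26.H605.Loc
import Fermat.Agent.S26.H605.FlatKerPi
import Mathlib.AlgebraicGeometry.Morphisms.Flat

/-!
# Row S26, block PIC, leaf P5 (helper605): flat base change of twisted Čech sections

Cartesian square `Y' = S' ×_X Y` with `ξ : S' ⟶ X` flat, `S'` affine mapping into the affine
open `X₀ ⊆ X`.  For a finite family of affine opens `V t ⊆ p⁻¹ X₀` of `Y` with quasi-compact
pairwise intersections and arbitrary "transition functions" `g t t'` on `V t ∩ V t'`: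
every twisted-compatible family on the `π⁻¹ V t` is a `Γ(S')`-linear combination of pull-backs
of twisted-compatible families on the `V t`.
-/

set_option autoImplicit false

open AlgebraicGeometry CategoryTheory CategoryTheory.Limits TopologicalSpace Opposite TensorProduct

universe u

namespace Fermat.Agent.S26.H605

noncomputable section

variable {X Y S' Y' : Scheme.{u}} {p : Y ⟶ X} {ξ : S' ⟶ X} {π : Y' ⟶ Y} {q' : Y' ⟶ S'}

/-- The algebra structure on functions induced by a morphism. -/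
@[reducible] def algOfLE {X Y : Scheme.{u}} (p : Y ⟶ X) {X₀ : X.Opens} {V : Y.Opens}
    (hV : V ≤ p ⁻¹ᵁ X₀) : Algebra Γ(X, X₀) Γ(Y, V) :=
  (pl p hV).toAlgebra

lemma pl_comm_sq (H : IsPullback π q' p ξ) {X₀ : X.Opens} {UT : S'.Opens} {V : Y.Opens}
    {W : Y'.Opens} (hξ : UT ≤ ξ ⁻¹ᵁ X₀) (hV : V ≤ p ⁻¹ᵁ X₀) (hWq : W ≤ q' ⁻¹ᵁ UT)
    (hWπ : W ≤ π ⁻¹ᵁ V) (a : Γ(X, X₀)) :
    pl q' hWq (pl ξ hξ a) = pl π hWπ (pl p hV a) := by
  rw [pl_pl, pl_pl]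
  exact (pl_congr H.w _ a).symm

section one

lemma preimage_eq_inf_top (π : Y' ⟶ Y) (q' : Y' ⟶ S') (V : Y.Opens) :
    π ⁻¹ᵁ V = π ⁻¹ᵁ V ⊓ q' ⁻¹ᵁ (⊤ : S'.Opens) :=
  (inf_of_le_left (fun _ _ => trivial)).symm

variable (H : IsPullback π q' p ξ) {X₀ : X.Opens} (hξ : (⊤ : S'.Opens) ≤ ξ ⁻¹ᵁ X₀)
  {V : Y.Opens} (hV : V ≤ p ⁻¹ᵁ X₀)

/-- The comparison map `Γ(S') ⊗ Γ(Y, V) → Γ(Y', π⁻¹ V)` as a ring homomorphism, through
Mathlib's `pushoutSection`. -/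
lemma exists_ringHom_mulHom :
    letI := algOfLE ξ hξ
    letI := algOfLE p hV
    ∃ (e : (Γ(S', ⊤) ⊗[Γ(X, X₀)] Γ(Y, V)) ≃+*
        ↑(pushout (p.appLE X₀ V hV) (ξ.appLE X₀ ⊤ hξ))),
      ∀ z, mulHom (A := Γ(X, X₀)) (pl q' (le_preimage_top q' (π ⁻¹ᵁ V)))
        (pl π (le_refl (π ⁻¹ᵁ V))) (pl_comm_sq H hξ hV (le_preimage_top q' _) le_rfl) z =
          (pushoutSection H hξ hV (UY := π ⁻¹ᵁ V) (preimage_eq_inf_top π q' V)).hom (e z) := by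
  letI := algOfLE ξ hξ
  letI := algOfLE p hV
  let E := (CommRingCat.isPushout_tensorProduct Γ(X, X₀) Γ(S', ⊤) Γ(Y, V)).flip.isoPushout
  let Psec := pushoutSection H hξ hV (UY := π ⁻¹ᵁ V) (preimage_eq_inf_top π q' V)
  let Ψ : (Γ(S', ⊤) ⊗[Γ(X, X₀)] Γ(Y, V)) →+* Γ(Y', π ⁻¹ᵁ V) := Psec.hom.comp E.hom.hom
  refine ⟨E.commRingCatIsoToRingEquiv, fun z => ?_⟩
  have h1 : ∀ c : Γ(S', ⊤), Ψ (c ⊗ₜ 1) = pl q' (le_preimage_top q' (π ⁻¹ᵁ V)) c := by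
    intro c
    have h : E.hom.hom (c ⊗ₜ 1) = (pushout.inr (p.appLE X₀ V hV) (ξ.appLE X₀ ⊤ hξ)).hom c :=
      congr($((CommRingCat.isPushout_tensorProduct Γ(X, X₀) Γ(S', ⊤)
        Γ(Y, V)).flip.inr_isoPushout_hom) c)
    change Psec.hom (E.hom.hom (c ⊗ₜ 1)) = _
    rw [h]
    have h' : pushout.inr (p.appLE X₀ V hV) (ξ.appLE X₀ ⊤ hξ) ≫ Psec = q'.appLE ⊤ (π ⁻¹ᵁ V) _ :=
      pushout.inr_desc _ _ _
    exact congr($h' c)
  have h2 : ∀ b : Γ(Y, V), Ψ (1 ⊗ₜ b) = pl π (le_refl (π ⁻¹ᵁ V)) b := by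
    intro b
    have h : E.hom.hom (1 ⊗ₜ b) = (pushout.inl (p.appLE X₀ V hV) (ξ.appLE X₀ ⊤ hξ)).hom b :=
      congr($((CommRingCat.isPushout_tensorProduct Γ(X, X₀) Γ(S', ⊤)
        Γ(Y, V)).flip.inl_isoPushout_hom) b)
    change Psec.hom (E.hom.hom (1 ⊗ₜ b)) = _
    rw [h]
    have h' : pushout.inl (p.appLE X₀ V hV) (ξ.appLE X₀ ⊤ hξ) ≫ Psec = π.appLE V (π ⁻¹ᵁ V) _ :=
      pushout.inl_desc _ _ _
    exact congr($h' b)
  change _ = Ψ z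
  induction z using TensorProduct.induction_on with
  | zero => simp only [map_zero]
  | add z z' hz hz' => simp only [map_add, hz, hz']
  | tmul c b =>
    rw [mulHom_tmul]
    have : (c ⊗ₜ[Γ(X, X₀)] b : Γ(S', ⊤) ⊗[Γ(X, X₀)] Γ(Y, V)) = (c ⊗ₜ 1) * (1 ⊗ₜ b) := by
      rw [Algebra.TensorProduct.tmul_mul_tmul, mul_one, one_mul]
    rw [this, map_mul, h1, h2]

include H in
lemma mulHom_surjective_of_isAffineOpen (hX₀ : IsAffineOpen X₀)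
    (hS' : IsAffineOpen (⊤ : S'.Opens)) (hVaff : IsAffineOpen V) :
    letI := algOfLE ξ hξ
    letI := algOfLE p hV
    Function.Surjective (mulHom (A := Γ(X, X₀)) (pl q' (le_preimage_top q' (π ⁻¹ᵁ V)))
        (pl π (le_refl (π ⁻¹ᵁ V))) (pl_comm_sq H hξ hV (le_preimage_top q' _) le_rfl)) := by
  letI := algOfLE ξ hξ
  letI := algOfLE p hV
  obtain ⟨e, he⟩ := exists_ringHom_mulHom H hξ hV
  have hiso : IsIso (pushoutSection H hξ hV (UY := π ⁻¹ᵁ V) (preimage_eq_inf_top π q' V)) :=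
    isIso_pushoutSection_of_isAffineOpen H hξ hV _ hX₀ hS' hVaff
  have hbij := (ConcreteCategory.isIso_iff_bijective _).mp hiso
  intro b'
  obtain ⟨z, hz⟩ := hbij.2 b'
  obtain ⟨w, rfl⟩ := e.surjective z
  exact ⟨w, (he w).trans hz⟩

include H in
lemma mulHom_injective_of_isCompact [Flat ξ] (hX₀ : IsAffineOpen X₀)
    (hS' : IsAffineOpen (⊤ : S'.Opens)) (hVc : IsCompact (V : Set Y)) :
    letI := algOfLE ξ hξ
    letI := algOfLE p hV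
    Function.Injective (mulHom (A := Γ(X, X₀)) (pl q' (le_preimage_top q' (π ⁻¹ᵁ V)))
        (pl π (le_refl (π ⁻¹ᵁ V))) (pl_comm_sq H hξ hV (le_preimage_top q' _) le_rfl)) := by
  letI := algOfLE ξ hξ
  letI := algOfLE p hV
  obtain ⟨e, he⟩ := exists_ringHom_mulHom H hξ hV
  have hmono : Mono (pushoutSection H hξ hV (UY := π ⁻¹ᵁ V) (preimage_eq_inf_top π q' V)) :=
    mono_pushoutSection_of_isCompact_of_flat_right H hξ hV _ hX₀ hS' hVc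
  have hinj := (ConcreteCategory.mono_iff_injective_of_preservesPullback _).mp hmono
  intro z z' h
  rw [he, he] at h
  exact e.injective (hinj h)

end one

/-- **Flat base change of twisted Čech sections.** -/
theorem twisted_baseChange (H : IsPullback π q' p ξ) [Flat ξ] {X₀ : X.Opens}
    (hX₀ : IsAffineOpen X₀) (hS' : IsAffineOpen (⊤ : S'.Opens))
    (hξ : (⊤ : S'.Opens) ≤ ξ ⁻¹ᵁ X₀)
    {T : Type*} [Finite T] (V : T → Y.Opens) (hV : ∀ t, V t ≤ p ⁻¹ᵁ X₀)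
    (hVaff : ∀ t, IsAffineOpen (V t))
    (hVc : ∀ t t', IsCompact ((V t ⊓ V t' : Y.Opens) : Set Y))
    (g : ∀ t t', Γ(Y, V t ⊓ V t'))
    (e' : ∀ t, Γ(Y', π ⁻¹ᵁ V t))
    (he' : ∀ t t', rr (π.preimage_mono (inf_le_left : V t ⊓ V t' ≤ V t)) (e' t) =
        pl π (le_refl (π ⁻¹ᵁ (V t ⊓ V t'))) (g t t') *
          rr (π.preimage_mono (inf_le_right : V t ⊓ V t' ≤ V t')) (e' t')) :
    ∃ S : Finset (Γ(S', ⊤) × (∀ t, Γ(Y, V t))),
      (∀ i ∈ S, ∀ t t', rr (inf_le_left : V t ⊓ V t' ≤ V t) (i.2 t) =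
        g t t' * rr (inf_le_right : V t ⊓ V t' ≤ V t') (i.2 t')) ∧
      ∀ t, e' t = ∑ i ∈ S, pl q' (le_preimage_top q' (π ⁻¹ᵁ V t)) i.1 *
        pl π (le_refl (π ⁻¹ᵁ V t)) (i.2 t) := by
  classical
  cases nonempty_fintype T
  letI : Algebra Γ(X, X₀) Γ(S', ⊤) := algOfLE ξ hξ
  haveI : Module.Flat Γ(X, X₀) Γ(S', ⊤) := ξ.flat_appLE hX₀ hS' hξ
  letI : ∀ t, Algebra Γ(X, X₀) Γ(Y, V t) := fun t => algOfLE p (hV t)
  letI : ∀ tt : T × T, Algebra Γ(X, X₀) Γ(Y, V tt.1 ⊓ V tt.2) :=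
    fun tt => algOfLE p (inf_le_left.trans (hV tt.1))
  obtain ⟨S, hS₁, hS₂⟩ := exists_sum_twisted_of_flat (A := Γ(X, X₀)) (R' := Γ(S', ⊤))
    (B := fun t => Γ(Y, V t)) (B' := fun t => Γ(Y', π ⁻¹ᵁ V t))
    (C := fun tt : T × T => Γ(Y, V tt.1 ⊓ V tt.2))
    (C' := fun tt : T × T => Γ(Y', π ⁻¹ᵁ (V tt.1 ⊓ V tt.2)))
    (fun t => pl q' (le_preimage_top q' (π ⁻¹ᵁ V t)))
    (fun t => pl π (le_refl (π ⁻¹ᵁ V t)))
    (fun t => pl_comm_sq H hξ (hV t) (le_preimage_top q' _) le_rfl)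
    (fun tt => pl q' (le_preimage_top q' (π ⁻¹ᵁ (V tt.1 ⊓ V tt.2))))
    (fun tt => pl π (le_refl (π ⁻¹ᵁ (V tt.1 ⊓ V tt.2))))
    (fun tt => pl_comm_sq H hξ (inf_le_left.trans (hV tt.1)) (le_preimage_top q' _) le_rfl)
    (fun tt => { toRingHom := rr (inf_le_left : V tt.1 ⊓ V tt.2 ≤ V tt.1)
                 commutes' := fun a => rr_pl p _ _ a })
    (fun tt => { toRingHom := rr (inf_le_right : V tt.1 ⊓ V tt.2 ≤ V tt.2)
                 commutes' := fun a => rr_pl p _ _ a })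
    (fun tt => rr (π.preimage_mono (inf_le_left : V tt.1 ⊓ V tt.2 ≤ V tt.1)))
    (fun tt => rr (π.preimage_mono (inf_le_right : V tt.1 ⊓ V tt.2 ≤ V tt.2)))
    (fun tt b => (rr_pl π _ _ b).trans (pl_rr π _ _ b).symm)
    (fun tt b => (rr_pl π _ _ b).trans (pl_rr π _ _ b).symm)
    (fun tt c => rr_pl q' _ _ c)
    (fun tt c => rr_pl q' _ _ c)
    (fun tt => g tt.1 tt.2)
    (fun t => mulHom_surjective_of_isAffineOpen H hξ (hV t) hX₀ hS' (hVaff t))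
    (fun tt => mulHom_injective_of_isCompact H hξ (inf_le_left.trans (hV tt.1)) hX₀ hS'
      (hVc tt.1 tt.2))
    e' (fun tt => he' tt.1 tt.2)
  exact ⟨S, fun i hi t t' => hS₁ i hi (t, t'), hS₂⟩

end

end Fermat.Agent.S26.H605
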