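import Mathlib.RingTheory.Flat.Basic
import Mathlib.LinearAlgebra.TensorProduct.Pi
import Mathlib.Algebra.Exact.Basic

/-!
# Row S26, block PIC, leaf P5 (helper605): flat base change of a kernel (pure algebra)

`A → R'` flat, `φ : P → Q` an `A`-linear map.  If `P'`, `Q'`, `φ'` is a "base change" of the
situation in the weak sense that `R' ⊗ P → P'` is surjective and `R' ⊗ Q → Q'` is injective,
then every element of `ker φ'` is the image of an element of `R' ⊗ ker φ`, i.e. a finite sum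
`∑ c_k · β (m_k)` with `m_k ∈ ker φ`.
-/

set_option autoImplicit false

open TensorProduct

namespace Fermat.Agent.S26.H605

variable {A R' P Q P' Q' : Type*} [CommRing A] [CommRing R'] [Algebra A R'] [Module.Flat A R']
  [AddCommGroup P] [Module A P] [AddCommGroup Q] [Module A Q] [AddCommGroup P'] [AddCommGroup Q']

theorem exists_tensor_ker_of_flat (φ : P →ₗ[A] Q) (βt : R' ⊗[A] P →+ P') (γt : R' ⊗[A] Q →+ Q')
    (φ' : P' →+ Q') (hcomm : ∀ z, φ' (βt z) = γt (φ.lTensor R' z))
    (hβ : Function.Surjective βt) (hγ : Function.Injective γt) (p' : P') (hp' : φ' p' = 0) :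
    ∃ w : R' ⊗[A] (LinearMap.ker φ), βt ((LinearMap.ker φ).subtype.lTensor R' w) = p' := by
  obtain ⟨z, rfl⟩ := hβ p'
  have hz : φ.lTensor R' z = 0 := by
    apply hγ
    rw [← hcomm, hp', map_zero]
  have hex := Module.Flat.lTensor_exact R' (LinearMap.exact_subtype_ker_map φ)
  obtain ⟨w, hw⟩ := (hex z).mp hz
  exact ⟨w, by rw [hw]⟩

/-- The same in terms of finite sums. -/
theorem exists_sum_ker_of_flat (φ : P →ₗ[A] Q) (βt : R' ⊗[A] P →+ P') (γt : R' ⊗[A] Q →+ Q')
    (φ' : P' →+ Q') (hcomm : ∀ z, φ' (βt z) = γt (φ.lTensor R' z))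
    (hβ : Function.Surjective βt) (hγ : Function.Injective γt) (p' : P') (hp' : φ' p' = 0) :
    ∃ S : Finset (R' × LinearMap.ker φ), p' = ∑ i ∈ S, βt (i.1 ⊗ₜ[A] (i.2 : P)) := by
  obtain ⟨w, rfl⟩ := exists_tensor_ker_of_flat φ βt γt φ' hcomm hβ hγ p' hp'
  obtain ⟨S, rfl⟩ := TensorProduct.exists_finset w
  refine ⟨S, ?_⟩
  simp only [map_sum, LinearMap.lTensor_tmul, Submodule.subtype_apply]

end Fermat.Agent.S26.H605
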