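import Fermat.Agent.S26.H605.Loc
import Fermat.Agent.S26.SpecCube
import Mathlib.AlgebraicGeometry.Morphisms.Flat
import Mathlib.AlgebraicGeometry.Morphisms.QuasiSeparated
import Mathlib.AlgebraicGeometry.FunctionField

/-!
# Row S26, block PIC, leaf P5 (helper605): geometric preparations

* `isPullback_prodMapLeft` : `X' ×_K W` is the base change of `X ×_K W → X` along `X' → X`.
* `flat_of_forall_eq_genericPoint` : a morphism into an integral scheme whose image is the
  generic point is flat.
* `exists_finite_affine_cover` : finite affine covers of quasi-compact opens, subordinate to a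
  point-indexed cover.
-/

set_option autoImplicit false

open AlgebraicGeometry CategoryTheory CategoryTheory.Limits TopologicalSpace Opposite

universe u

namespace Fermat.Agent.S26.H605

noncomputable section

section pullback

variable {K : Type u} [Field K] {X X' W : Scheme.{u}} (x : X ⟶ Spec (CommRingCat.of K))
  (w : W ⟶ Spec (CommRingCat.of K)) (f : X' ⟶ X)

lemma prodMapLeft_fst :
    prodMapLeft x (f ≫ x) w f rfl ≫ pullback.fst x w = pullback.fst (f ≫ x) w ≫ f := by
  simp only [prodMapLeft, pullback.map]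
  exact pullback.lift_fst _ _ _

lemma prodMapLeft_snd :
    prodMapLeft x (f ≫ x) w f rfl ≫ pullback.snd x w = pullback.snd (f ≫ x) w := by
  simp only [prodMapLeft, pullback.map]
  exact (pullback.lift_snd _ _ _).trans (Category.comp_id _)

/-- `X' ×_K W` is the base change of `pr₁ : X ×_K W ⟶ X` along `f : X' ⟶ X`. -/
theorem isPullback_prodMapLeft :
    IsPullback (prodMapLeft x (f ≫ x) w f rfl) (pullback.fst (f ≫ x) w)
      (pullback.fst x w) f := by
  refine IsPullback.of_right ?_ (prodMapLeft_fst x w f) (IsPullback.of_hasPullback x w).flip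
  rw [prodMapLeft_snd]
  exact (IsPullback.of_hasPullback (f ≫ x) w).flip

end pullback

section flat

variable {X S' : Scheme.{u}} [IsIntegral X]

/-- A morphism into an integral scheme whose image is the generic point is flat. -/
theorem flat_of_forall_eq_genericPoint (ξ : S' ⟶ X) (hξ : ∀ s, ξ s = genericPoint X) :
    Flat ξ := by
  rw [Flat.iff_flat_stalkMap]
  intro s
  have hfield : ∀ z : X, z = genericPoint X → IsField (X.presheaf.stalk z) := by
    rintro z rfl
    exact Field.toIsField X.functionField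
  have hF := hfield (ξ s) (hξ s)
  letI := hF.toField
  letI := (ξ.stalkMap s).hom.toAlgebra
  show Module.Flat (X.presheaf.stalk (ξ s)) (S'.presheaf.stalk s)
  infer_instance

end flat

section cover

variable {Y : Scheme.{u}}

/-- A quasi-compact open `Ω` has a finite cover by affine opens subordinate to a given
point-indexed family of opens. -/
theorem exists_finite_affine_cover (Ω : Y.Opens) (hΩ : IsCompact (Ω : Set Y))
    (U : Y → Y.Opens) (hU : ∀ y, y ∈ U y) :
    ∃ (T : Type u) (_ : Finite T) (V : T → Y.Opens) (yp : T → Y),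
      (∀ t, IsAffineOpen (V t)) ∧ (∀ t, V t ≤ U (yp t)) ∧ (∀ t, V t ≤ Ω) ∧
      ∀ y ∈ Ω, ∃ t, y ∈ V t := by
  have hex : ∀ y : Y, ∃ V : Y.Opens, IsAffineOpen V ∧ V ≤ U y ⊓ Ω ∧ (y ∈ Ω → y ∈ V) := by
    intro y
    by_cases hy : y ∈ Ω
    · obtain ⟨V, hV, hyV, hVle⟩ := (Opens.isBasis_iff_nbhd.mp Y.isBasis_affineOpens)
        (show y ∈ U y ⊓ Ω from ⟨hU y, hy⟩)
      exact ⟨V, hV, hVle, fun _ => hyV⟩
    · exact ⟨⊥, isAffineOpen_bot Y, bot_le, fun h => (hy h).elim⟩
  choose V hVaff hVle hVmem using hex
  obtain ⟨s, hs, hcov⟩ := hΩ.elim_nhds_subcover (fun y => (V y : Set Y))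
    (fun y hy => (V y).isOpen.mem_nhds (hVmem y hy))
  refine ⟨{y // y ∈ s}, inferInstance, fun t => V t.1, fun t => t.1, fun t => hVaff t.1,
    fun t => (hVle t.1).trans inf_le_left, fun t => (hVle t.1).trans inf_le_right,
    fun y hy => ?_⟩
  obtain ⟨z, hz, hyz⟩ := Set.mem_iUnion₂.mp (hcov hy)
  exact ⟨⟨z, hz⟩, hyz⟩

end cover

end

end Fermat.Agent.S26.H605
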