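import Fermat.Agent.S26.H605.Twist
import Fermat.Agent.S26.H605.BCGeom
import Fermat.Agent.S26.H605.GenTrivPrep
import Mathlib.AlgebraicGeometry.Morphisms.UniversallyClosed
import Mathlib.AlgebraicGeometry.Morphisms.QuasiSeparated
import Mathlib.AlgebraicGeometry.PullbackCarrier
import Mathlib.AlgebraicGeometry.FunctionField

/-!
# Row S26, block PIC, leaf P5 (helper605): the core of generic triviality

Cartesian square `Y' = S' ×_X Y` with `X` integral, `ξ : S' ⟶ X` landing in the generic point,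
`S'` affine, `p : Y ⟶ X` quasi-compact, quasi-separated and closed, `Γ(Y', 𝒪)` a field.
If the pull-back to `Y'` of the line bundle of a cocycle `c` on `Y` has a nowhere vanishing
section, then so has its restriction to `p⁻¹ U` for an open neighbourhood `U` of the generic
point (`exists_open_twisted`).
-/

set_option autoImplicit false

open AlgebraicGeometry CategoryTheory CategoryTheory.Limits TopologicalSpace Opposite

universe u

namespace Fermat.Agent.S26.H605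

noncomputable section

/-! ## Quotient of two twisted families -/

section ratio

variable {Z : Scheme.{u}} {T : Type u} (W : T → Z.Opens) (hcov : ∀ z : Z, ∃ t, z ∈ W t)
  (e m : ∀ t, Γ(Z, W t)) (he : ∀ t, IsUnit (e t))
  (hem : ∀ t t', rr (inf_le_left : W t ⊓ W t' ≤ W t) (m t) *
      rr (inf_le_right : W t ⊓ W t' ≤ W t') (e t') =
    rr (inf_le_right : W t ⊓ W t' ≤ W t') (m t') * rr (inf_le_left : W t ⊓ W t' ≤ W t) (e t))

include hcov he hem in
/-- Two families with the same twisting, the first consisting of units, differ by a global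
function. -/
theorem exists_ratio : ∃ l : Γ(Z, ⊤), ∀ t, m t = rr (le_top : W t ≤ ⊤) l * e t := by
  let lam : ∀ t, Γ(Z, W t) := fun t => m t * ((he t).unit⁻¹ : Γ(Z, W t)ˣ)
  have hlam : ∀ t, lam t * e t = m t := by
    intro t
    simp only [lam, mul_assoc]
    rw [IsUnit.val_inv_mul, mul_one]
  have hcompat : ∀ t t', rr (inf_le_left : W t ⊓ W t' ≤ W t) (lam t) =
      rr (inf_le_right : W t ⊓ W t' ≤ W t') (lam t') := by
    intro t t'
    have hu : IsUnit (rr (inf_le_left : W t ⊓ W t' ≤ W t) (e t) *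
        rr (inf_le_right : W t ⊓ W t' ≤ W t') (e t')) :=
      ((he t).map _).mul ((he t').map _)
    apply hu.mul_right_cancel
    have h1 := congrArg (rr (inf_le_left : W t ⊓ W t' ≤ W t)) (hlam t)
    have h2 := congrArg (rr (inf_le_right : W t ⊓ W t' ≤ W t')) (hlam t')
    rw [map_mul] at h1 h2
    calc rr _ (lam t) * (rr _ (e t) * rr _ (e t'))
        = (rr _ (lam t) * rr _ (e t)) * rr _ (e t') := by ring
      _ = rr _ (m t) * rr _ (e t') := by rw [h1]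
      _ = rr _ (m t') * rr _ (e t) := hem t t'
      _ = (rr _ (lam t') * rr _ (e t')) * rr _ (e t) := by rw [h2]
      _ = rr _ (lam t') * (rr _ (e t) * rr _ (e t')) := by ring
  obtain ⟨l, hl⟩ := exists_glue W (fun t => le_top) (fun z _ => by
    obtain ⟨t, ht⟩ := hcov z
    exact Opens.mem_iSup.mpr ⟨t, ht⟩) lam hcompat
  exact ⟨l, fun t => by rw [hl t, hlam t]⟩

end ratio

/-! ## A section which is nowhere zero on the geometric generic fibre -/

section unitSection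

variable {X Y S' Y' : Scheme.{u}} {p : Y ⟶ X} {ξ : S' ⟶ X} {π : Y' ⟶ Y} {q' : Y' ⟶ S'}

/-- The transition function of the cocycle on the overlap of two members of a subordinate
family of opens. -/
def gV (c : Pic.Cocycle Y) {T : Type u} (V : T → Y.Opens) (yp : T → Y)
    (hVU : ∀ t, V t ≤ c.U (yp t)) (t t' : T) : Γ(Y, V t ⊓ V t') :=
  rr (le_inf (inf_le_left.trans (hVU t)) (inf_le_right.trans (hVU t')))
    (c.g (yp t) (yp t') : Γ(Y, c.U (yp t) ⊓ c.U (yp t')))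

lemma isUnit_gV (c : Pic.Cocycle Y) {T : Type u} (V : T → Y.Opens) (yp : T → Y)
    (hVU : ∀ t, V t ≤ c.U (yp t)) (t t' : T) : IsUnit (gV c V yp hVU t t') :=
  (Units.isUnit _).map _

lemma pl_gV {Z : Scheme.{u}} (j : Z ⟶ Y) (c : Pic.Cocycle Y) {T : Type u} (V : T → Y.Opens)
    (yp : T → Y) (hVU : ∀ t, V t ≤ c.U (yp t)) (t t' : T) {O : Z.Opens}
    (hO : O ≤ j ⁻¹ᵁ (V t ⊓ V t')) :
    pl j hO (gV c V yp hVU t t') =
      tg j c (yp t) (yp t') (hO.trans (j.preimage_mono (inf_le_left.trans (hVU t))))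
        (hO.trans (j.preimage_mono (inf_le_right.trans (hVU t')))) := by
  simp only [gV, tg, pl_rr]

variable (H : IsPullback π q' p ξ) [Flat ξ] [QuasiSeparated p]
  {X₀ : X.Opens} (hX₀ : IsAffineOpen X₀) (hS' : IsAffineOpen (⊤ : S'.Opens))
  (hξ₀ : (⊤ : S'.Opens) ≤ ξ ⁻¹ᵁ X₀) (hfield : IsField Γ(Y', ⊤))
  (c : Pic.Cocycle Y) (σ' : ∀ y, Γ(Y', π ⁻¹ᵁ c.U y)) (hσ' : IsTw π c σ')
  (hu : ∀ y, IsUnit (σ' y))
  {T : Type u} [Finite T] (V : T → Y.Opens) (yp : T → Y) (hVaff : ∀ t, IsAffineOpen (V t))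
  (hVU : ∀ t, V t ≤ c.U (yp t)) (hVΩ : ∀ t, V t ≤ p ⁻¹ᵁ X₀)
  (hcov' : ∀ y' : Y', ∃ t, π y' ∈ V t)

include H hX₀ hS' hξ₀ hfield hσ' hu hVaff hVΩ hcov' in
/-- There is a section of the line bundle over `p⁻¹ X₀` (given on the finite affine cover)
whose pull-back to `Y'` vanishes nowhere. -/
theorem exists_unit_section :
    ∃ s : ∀ t, Γ(Y, V t),
      (∀ t t', rr (inf_le_left : V t ⊓ V t' ≤ V t) (s t) =
        gV c V yp hVU t t' * rr (inf_le_right : V t ⊓ V t' ≤ V t') (s t')) ∧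
      ∀ t, IsUnit (pl π (le_refl (π ⁻¹ᵁ V t)) (s t)) := by
  classical
  let e' : ∀ t, Γ(Y', π ⁻¹ᵁ V t) := fun t => rr (π.preimage_mono (hVU t)) (σ' (yp t))
  have he'u : ∀ t, IsUnit (e' t) := fun t => (hu _).map _
  have he' : ∀ t t', rr (π.preimage_mono (inf_le_left : V t ⊓ V t' ≤ V t)) (e' t) =
      pl π (le_refl (π ⁻¹ᵁ (V t ⊓ V t'))) (gV c V yp hVU t t') *
        rr (π.preimage_mono (inf_le_right : V t ⊓ V t' ≤ V t')) (e' t') := by
    intro t t'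
    have := hσ'.on (yp t) (yp t') (W := π ⁻¹ᵁ (V t ⊓ V t'))
      (π.preimage_mono (inf_le_left.trans (hVU t)))
      (π.preimage_mono (inf_le_right.trans (hVU t')))
    simp only [e', rr_rr, pl_gV]
    exact this.symm
  have hVc : ∀ t t', IsCompact ((V t ⊓ V t' : Y.Opens) : Set Y) := fun t t' =>
    (p.isQuasiSeparated_preimage hX₀.isQuasiSeparated) (V t) (V t') (hVΩ t) (V t).isOpen
      (hVaff t).isCompact (hVΩ t') (V t').isOpen (hVaff t').isCompact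
  obtain ⟨S, hS₁, hS₂⟩ := twisted_baseChange H hX₀ hS' hξ₀ V hVΩ hVaff hVc
    (gV c V yp hVU) e' he'
  -- the ratios
  have hratio : ∀ i ∈ S, ∃ l : Γ(Y', ⊤), ∀ t,
      pl π (le_refl (π ⁻¹ᵁ V t)) (i.2 t) = rr (le_top : π ⁻¹ᵁ V t ≤ ⊤) l * e' t := by
    intro i hi
    refine exists_ratio (fun t => π ⁻¹ᵁ V t) hcov' e' (fun t => pl π le_rfl (i.2 t)) he'u ?_
    intro t t'
    have hO : π ⁻¹ᵁ V t ⊓ π ⁻¹ᵁ V t' ≤ π ⁻¹ᵁ (V t ⊓ V t') := Pic.inf_preimage_le π _ _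
    have h1 := congrArg (fun a => rr hO (pl π (le_refl (π ⁻¹ᵁ (V t ⊓ V t'))) a))
      (hS₁ i hi t t')
    have h2 := congrArg (rr hO) (he' t t')
    simp only [map_mul, pl_rr, rr_pl] at h1
    simp only [map_mul, rr_rr, rr_pl] at h2
    simp only [rr_pl]
    rw [h1, h2]
    ring
  choose! l hl using hratio
  have hsum : ∑ i ∈ S, pl q' (le_preimage_top q' (⊤ : Y'.Opens)) i.1 * l i = 1 := by
    refine ext_of_cover (fun t => π ⁻¹ᵁ V t) (fun t => le_top) (fun y' _ => by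
      obtain ⟨t, ht⟩ := hcov' y'
      exact Opens.mem_iSup.mpr ⟨t, ht⟩) _ _ fun t => ?_
    apply (he'u t).mul_right_cancel
    rw [map_one, one_mul, map_sum, Finset.sum_mul]
    conv_rhs => rw [hS₂ t]
    refine Finset.sum_congr rfl fun i hi => ?_
    rw [map_mul, mul_assoc, ← hl i hi t, rr_pl]
  have hex : ∃ i ∈ S, l i ≠ 0 := by
    by_contra hne
    push Not at hne
    have h0 : (∑ i ∈ S, pl q' (le_preimage_top q' (⊤ : Y'.Opens)) i.1 * l i) = 0 :=
      Finset.sum_eq_zero fun i hi => by rw [hne i hi, mul_zero]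
    rw [hsum] at h0
    haveI := hfield.nontrivial
    exact one_ne_zero h0
  obtain ⟨i, hi, hli⟩ := hex
  have hlu : IsUnit (l i) := by
    obtain ⟨b, hb⟩ := hfield.mul_inv_cancel hli
    exact IsUnit.of_mul_eq_one _ hb
  refine ⟨i.2, hS₁ i hi, fun t => ?_⟩
  rw [hl i hi t]
  exact (hlu.map _).mul (he'u t)

end unitSection

/-! ## Spreading out: the zero locus and properness -/

section spread

variable {X Y S' Y' : Scheme.{u}} {p : Y ⟶ X} {ξ : S' ⟶ X} {π : Y' ⟶ Y} {q' : Y' ⟶ S'}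

/-- Points of a fibre product. -/
lemma exists_preimage_of_isPullback (H : IsPullback π q' p ξ) (z : Y) (s₀ : S')
    (h : p z = ξ s₀) : ∃ y' : Y', π y' = z ∧ q' y' = s₀ := by
  obtain ⟨w, hw1, hw2⟩ := Scheme.Pullback.exists_preimage_pullback (f := p) (g := ξ) z s₀ h
  refine ⟨H.isoPullback.inv w, ?_, ?_⟩
  · rw [← Scheme.Hom.comp_apply, H.isoPullback_inv_fst, hw1]
  · rw [← Scheme.Hom.comp_apply, H.isoPullback_inv_snd, hw2]

variable [UniversallyClosed p] {X₀ : X.Opens} (η : X) (hη : η ∈ X₀)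
  (hlift : ∀ z : Y, p z = η → ∃ y' : Y', π y' = z)
  (c : Pic.Cocycle Y) {T : Type u} (V : T → Y.Opens) (yp : T → Y)
  (hVU : ∀ t, V t ≤ c.U (yp t))
  (hcovΩ : ∀ y ∈ p ⁻¹ᵁ X₀, ∃ t, y ∈ V t)
  (s : ∀ t, Γ(Y, V t))
  (hs : ∀ t t', rr (inf_le_left : V t ⊓ V t' ≤ V t) (s t) =
    gV c V yp hVU t t' * rr (inf_le_right : V t ⊓ V t' ≤ V t') (s t'))
  (hsu : ∀ t, IsUnit (pl π (le_refl (π ⁻¹ᵁ V t)) (s t)))

include hη hlift hcovΩ hs hsu in
/-- A section which is nowhere zero on the fibre over `η` is nowhere zero over an open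
neighbourhood of `η` (the projection is closed). -/
theorem exists_open_of_unit_section :
    ∃ U : X.Opens, η ∈ U ∧ U ≤ X₀ ∧ ∀ t, V t ⊓ p ⁻¹ᵁ U ≤ Y.basicOpen (s t) := by
  let D : Y.Opens := ⨆ t, Y.basicOpen (s t)
  have hC : IsClosed (p '' (D : Set Y)ᶜ) := p.isClosedMap _ D.isOpen.isClosed_compl
  let U' : X.Opens := ⟨(p '' (D : Set Y)ᶜ)ᶜ, hC.isOpen_compl⟩
  refine ⟨X₀ ⊓ U', ⟨hη, ?_⟩, inf_le_left, ?_⟩
  · rintro ⟨z, hzD, hz⟩
    obtain ⟨y', rfl⟩ := hlift z hz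
    have hzΩ : π y' ∈ p ⁻¹ᵁ X₀ := by
      show p (π y') ∈ X₀
      rw [hz]; exact hη
    obtain ⟨t, ht⟩ := hcovΩ _ hzΩ
    have hb := (isUnit_iff_basicOpen _).mp (hsu t)
    rw [basicOpen_pl] at hb
    have hy' : y' ∈ π ⁻¹ᵁ V t ⊓ π ⁻¹ᵁ Y.basicOpen (s t) := hb.ge ht
    exact hzD (Opens.mem_iSup.mpr ⟨t, hy'.2⟩)
  · rintro t y ⟨hyt, hyU⟩
    have hyD : y ∈ D := by
      by_contra hyD
      exact hyU.2 ⟨y, hyD, rfl⟩
    obtain ⟨t', ht'⟩ := Opens.mem_iSup.mp hyD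
    have hyt' : y ∈ V t' := Y.basicOpen_le _ ht'
    have h1 : y ∈ Y.basicOpen (gV c V yp hVU t t' *
        rr (inf_le_right : V t ⊓ V t' ≤ V t') (s t')) := by
      rw [Scheme.basicOpen_mul, (isUnit_iff_basicOpen _).mp (isUnit_gV c V yp hVU t t'),
        basicOpen_rr]
      exact ⟨⟨hyt, hyt'⟩, ⟨hyt, hyt'⟩, ht'⟩
    rw [← hs t t', basicOpen_rr] at h1
    exact h1.2

end spread

/-! ## The core theorem -/

section core

variable {X Y S' Y' : Scheme.{u}} {p : Y ⟶ X} {ξ : S' ⟶ X} {π : Y' ⟶ Y} {q' : Y' ⟶ S'}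

/-- **Generic triviality, core form.**  If the pull-back of the line bundle of `c` to the
"geometric generic fibre" `Y'` has a nowhere vanishing section, then there is an open
neighbourhood `U` of `η` such that the pull-back of the line bundle along every morphism
`j : Z ⟶ Y` landing in `p⁻¹ U` has a nowhere vanishing section. -/
theorem exists_open_twisted (H : IsPullback π q' p ξ) [Flat ξ] [QuasiCompact p]
    [QuasiSeparated p] [UniversallyClosed p] [Nonempty S']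
    (hS' : IsAffineOpen (⊤ : S'.Opens)) (η : X) (hξ : ∀ s, ξ s = η)
    (hfield : IsField Γ(Y', ⊤)) (c : Pic.Cocycle Y)
    (σ' : ∀ y, Γ(Y', π ⁻¹ᵁ c.U y)) (hσ' : IsTw π c σ') (hu : ∀ y, IsUnit (σ' y)) :
    ∃ U : X.Opens, η ∈ U ∧ ∀ (Z : Scheme.{u}) (j : Z ⟶ Y), (∀ z, p (j z) ∈ U) →
      ∃ σ : ∀ y, Γ(Z, j ⁻¹ᵁ c.U y), IsTw j c σ ∧ ∀ y, IsUnit (σ y) := by
  -- an affine neighbourhood of `η`
  obtain ⟨X₀, hX₀, hη, -⟩ := (Opens.isBasis_iff_nbhd.mp X.isBasis_affineOpens)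
    (show η ∈ (⊤ : X.Opens) from trivial)
  have hξ₀ : (⊤ : S'.Opens) ≤ ξ ⁻¹ᵁ X₀ := fun s _ => by
    show ξ s ∈ X₀
    rw [hξ s]; exact hη
  have hpπ : ∀ y' : Y', p (π y') = η := fun y' => by
    rw [← Scheme.Hom.comp_apply, H.w, Scheme.Hom.comp_apply, hξ]
  -- a finite affine cover of `p⁻¹ X₀`
  obtain ⟨T, hT, V, yp, hVaff, hVU, hVΩ, hcovΩ⟩ := exists_finite_affine_cover (p ⁻¹ᵁ X₀)
    (p.isCompact_preimage hX₀.isCompact) c.U c.mem
  have hcov' : ∀ y' : Y', ∃ t, π y' ∈ V t := fun y' =>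
    hcovΩ _ (show p (π y') ∈ X₀ by rw [hpπ]; exact hη)
  obtain ⟨s, hs, hsu⟩ := exists_unit_section H hX₀ hS' hξ₀ hfield c σ' hσ' hu V yp hVaff hVU
    hVΩ hcov'
  have hlift : ∀ z : Y, p z = η → ∃ y' : Y', π y' = z := fun z hz => by
    obtain ⟨s₀⟩ := (inferInstance : Nonempty S')
    obtain ⟨y', hy', -⟩ := exists_preimage_of_isPullback H z s₀ (hz.trans (hξ s₀).symm)
    exact ⟨y', hy'⟩
  obtain ⟨U, hηU, hUX₀, hU⟩ := exists_open_of_unit_section η hη hlift c V yp hVU hcovΩ s hs hsu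
  refine ⟨U, hηU, fun Z j hj => ?_⟩
  have hjV : ∀ t, j ⁻¹ᵁ V t ≤ j ⁻¹ᵁ c.U (yp t) := fun t => j.preimage_mono (hVU t)
  obtain ⟨σ, hσ, -, hσu⟩ := exists_twisted (f := j) (c := c) (fun t => j ⁻¹ᵁ V t) yp hjV
    (fun z => hcovΩ _ (show p (j z) ∈ X₀ from hUX₀ (hj z)))
    (fun t => pl j (le_refl (j ⁻¹ᵁ V t)) (s t)) (fun t t' => by
      have hO : j ⁻¹ᵁ V t ⊓ j ⁻¹ᵁ V t' ≤ j ⁻¹ᵁ (V t ⊓ V t') := Pic.inf_preimage_le j _ _
      have h1 := congrArg (pl j hO) (hs t t')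
      simp only [map_mul, pl_rr, pl_gV] at h1
      simp only [rr_pl]
      exact h1.symm)
  refine ⟨σ, hσ, hσu fun t => ?_⟩
  rw [isUnit_iff_basicOpen, basicOpen_pl]
  refine inf_of_le_left fun z hz => ?_
  exact hU t ⟨hz, hj z⟩

end core

end

end Fermat.Agent.S26.H605
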