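import Mathlib.AlgebraicGeometry.Scheme
import Mathlib.Topology.Sheaves.SheafCondition.UniqueGluing
import Fermat.Agent.S26.Pic.Defs

/-!
# Row S26, block PIC, leaf P5 (helper605): restriction, pull-back and gluing of functions

Ring-level versions `rr` (restriction) and `pl` (pull-back) of `Pic.res`, `Pic.pull`, with the
sheaf axioms in the form used by the twisted-section calculus of `Twist.lean`.
-/

set_option autoImplicit false

open AlgebraicGeometry CategoryTheory TopologicalSpace Opposite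

universe u

namespace Fermat.Agent.S26.H605

noncomputable section

variable {X Y Z : Scheme.{u}}

/-- Restriction of functions. -/
def rr {U V : X.Opens} (h : V ≤ U) : Γ(X, U) →+* Γ(X, V) :=
  (X.presheaf.map (homOfLE h).op).hom

/-- Pull-back of functions along `f`, to an open contained in the preimage. -/
def pl (f : X ⟶ Y) {U : Y.Opens} {V : X.Opens} (e : V ≤ f ⁻¹ᵁ U) : Γ(Y, U) →+* Γ(X, V) :=
  (f.appLE U V e).hom

lemma rr_rr {U V W : X.Opens} (h : V ≤ U) (h' : W ≤ V) (a : Γ(X, U)) :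
    rr h' (rr h a) = rr (h'.trans h) a := by
  simp only [rr]
  rw [← CommRingCat.comp_apply, ← Functor.map_comp]
  rfl

lemma rr_self {U : X.Opens} (h : U ≤ U) (a : Γ(X, U)) : rr h a = a := by
  simp only [rr]
  have : (homOfLE h).op = 𝟙 (op U) := rfl
  rw [this, X.presheaf.map_id]
  rfl

lemma pl_rr (f : X ⟶ Y) {U U' : Y.Opens} {V : X.Opens} (h : U' ≤ U) (e : V ≤ f ⁻¹ᵁ U')
    (a : Γ(Y, U)) :
    pl f e (rr h a) = pl f (e.trans (f.preimage_mono h)) a := by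
  simp only [pl, rr]
  rw [← CommRingCat.comp_apply, Scheme.Hom.map_appLE]

lemma rr_pl (f : X ⟶ Y) {U : Y.Opens} {V V' : X.Opens} (e : V ≤ f ⁻¹ᵁ U) (h : V' ≤ V)
    (a : Γ(Y, U)) :
    rr h (pl f e a) = pl f (h.trans e) a := by
  simp only [pl, rr]
  rw [← CommRingCat.comp_apply, Scheme.Hom.appLE_map]

lemma pl_pl (f : X ⟶ Y) (g : Y ⟶ Z) {U : Z.Opens} {V : Y.Opens} {W : X.Opens}
    (e₁ : V ≤ g ⁻¹ᵁ U) (e₂ : W ≤ f ⁻¹ᵁ V) (a : Γ(Z, U)) :
    pl f e₂ (pl g e₁ a) = pl (f ≫ g) (e₂.trans (f.preimage_mono e₁)) a := by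
  simp only [pl]
  rw [← CommRingCat.comp_apply, Scheme.Hom.appLE_comp_appLE]

lemma le_preimage_top (f : X ⟶ Y) (W : X.Opens) : W ≤ f ⁻¹ᵁ (⊤ : Y.Opens) :=
  fun _ _ => trivial

lemma pl_congr {f f' : X ⟶ Y} (hf : f = f') {U : Y.Opens} {V : X.Opens} (e : V ≤ f ⁻¹ᵁ U)
    (a : Γ(Y, U)) : pl f e a = pl f' (hf ▸ e) a := by
  subst hf; rfl

@[simp] lemma coe_res {U V : X.Opens} (h : V ≤ U) (a : Γ(X, U)ˣ) :
    ((Pic.res h a : Γ(X, V)ˣ) : Γ(X, V)) = rr h (a : Γ(X, U)) := rfl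

@[simp] lemma coe_pull (f : X ⟶ Y) {U : Y.Opens} {V : X.Opens} (e : V ≤ f ⁻¹ᵁ U)
    (a : Γ(Y, U)ˣ) :
    ((Pic.pull f e a : Γ(X, V)ˣ) : Γ(X, V)) = pl f e (a : Γ(Y, U)) := rfl

/-! ## The sheaf axioms -/

/-- Locality: two functions on `U` agreeing on the members of a cover of `U` are equal. -/
lemma ext_of_cover {ι : Type u} {U : X.Opens} (V : ι → X.Opens) (hV : ∀ i, V i ≤ U)
    (hcov : U ≤ ⨆ i, V i) (s t : Γ(X, U)) (h : ∀ i, rr (hV i) s = rr (hV i) t) : s = t :=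
  X.sheaf.eq_of_locally_eq' V U (fun i => homOfLE (hV i)) hcov s t h

/-- Gluing: compatible functions on the members of a cover of `U` glue. -/
lemma exists_glue {ι : Type u} {U : X.Opens} (V : ι → X.Opens) (hV : ∀ i, V i ≤ U)
    (hcov : U ≤ ⨆ i, V i) (sf : ∀ i, Γ(X, V i))
    (hcompat : ∀ i j, rr (inf_le_left : V i ⊓ V j ≤ V i) (sf i) =
      rr (inf_le_right : V i ⊓ V j ≤ V j) (sf j)) :
    ∃ s : Γ(X, U), ∀ i, rr (hV i) s = sf i := by
  obtain ⟨s, hs, -⟩ := X.sheaf.existsUnique_gluing' V U (fun i => homOfLE (hV i)) hcov sf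
    (fun i j => hcompat i j)
  exact ⟨s, hs⟩

/-- A function is a unit iff it vanishes nowhere. -/
lemma isUnit_iff_basicOpen {U : X.Opens} (s : Γ(X, U)) : IsUnit s ↔ X.basicOpen s = U := by
  refine ⟨fun h => X.basicOpen_of_isUnit h, fun h => ?_⟩
  refine RingedSpace.isUnit_of_isUnit_germ (X := X.toLocallyRingedSpace.toRingedSpace) U s
    fun x hx => ?_
  have hx' : x ∈ X.basicOpen s := by rw [h]; exact hx
  exact (X.mem_basicOpen s x hx).mp hx'

lemma basicOpen_rr {U V : X.Opens} (h : V ≤ U) (s : Γ(X, U)) :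
    X.basicOpen (rr h s) = V ⊓ X.basicOpen s :=
  X.basicOpen_res s (homOfLE h).op

lemma basicOpen_pl (f : X ⟶ Y) {U : Y.Opens} {V : X.Opens} (e : V ≤ f ⁻¹ᵁ U) (s : Γ(Y, U)) :
    X.basicOpen (pl f e s) = V ⊓ f ⁻¹ᵁ (Y.basicOpen s) :=
  Scheme.basicOpen_appLE f V U e s

/-- Units are local. -/
lemma isUnit_of_cover {ι : Type u} {U : X.Opens} (V : ι → X.Opens) (hV : ∀ i, V i ≤ U)
    (hcov : U ≤ ⨆ i, V i) (s : Γ(X, U)) (h : ∀ i, IsUnit (rr (hV i) s)) : IsUnit s := by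
  rw [isUnit_iff_basicOpen]
  refine le_antisymm (X.basicOpen_le s) fun x hx => ?_
  obtain ⟨i, hi⟩ := Opens.mem_iSup.mp (hcov hx)
  have := (isUnit_iff_basicOpen _).mp (h i)
  rw [basicOpen_rr] at this
  have hx' : x ∈ V i ⊓ X.basicOpen s := this.ge hi
  exact hx'.2

end

end Fermat.Agent.S26.H605
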