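import Fermat.Agent.S26.H605.Loc

/-!
# Row S26, block PIC, leaf P5 (helper605): twisted sections of a cocycle along a morphism

For `f : Y' ⟶ Y` and a cocycle `c` on `Y` (point-indexed model of `Pic/Defs.lean`) a *twisted
family* is `σ y ∈ Γ(Y', f⁻¹ U_y)` (`y : Y`) with `f^* g_{yz} · σ_z = σ_y` on overlaps, i.e. a
global section of the pulled back line bundle.  `exists_twisted` extends a twisted family given
on an arbitrary refinement to all charts (sheaf gluing).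
-/

set_option autoImplicit false

open AlgebraicGeometry CategoryTheory TopologicalSpace Opposite

universe u

namespace Fermat.Agent.S26.H605

noncomputable section

variable {Y' Y : Scheme.{u}} (f : Y' ⟶ Y) (c : Pic.Cocycle Y)

/-- The pulled-back transition function `f^* g_{yz}` on an open `W ⊆ f⁻¹ U_y ∩ f⁻¹ U_z`. -/
def tg (y z : Y) {W : Y'.Opens} (hy : W ≤ f ⁻¹ᵁ c.U y) (hz : W ≤ f ⁻¹ᵁ c.U z) : Γ(Y', W) :=
  pl f (show W ≤ f ⁻¹ᵁ (c.U y ⊓ c.U z) from le_inf hy hz) (c.g y z : Γ(Y, c.U y ⊓ c.U z))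

lemma rr_tg (y z : Y) {W W' : Y'.Opens} (hy : W ≤ f ⁻¹ᵁ c.U y) (hz : W ≤ f ⁻¹ᵁ c.U z)
    (h : W' ≤ W) : rr h (tg f c y z hy hz) = tg f c y z (h.trans hy) (h.trans hz) := by
  simp only [tg, rr_pl]

lemma tg_mul (x y z : Y) {W : Y'.Opens} (hx : W ≤ f ⁻¹ᵁ c.U x) (hy : W ≤ f ⁻¹ᵁ c.U y)
    (hz : W ≤ f ⁻¹ᵁ c.U z) : tg f c x y hx hy * tg f c y z hy hz = tg f c x z hx hz := by
  have hW : W ≤ f ⁻¹ᵁ (c.U x ⊓ c.U y ⊓ c.U z) := le_inf (le_inf hx hy) hz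
  have := congrArg (fun a : Γ(Y, c.U x ⊓ c.U y ⊓ c.U z)ˣ => pl f hW (a : Γ(Y, _)))
    (c.cocycle x y z)
  simp only [Units.val_mul, coe_res, map_mul, pl_rr] at this
  exact this

lemma tg_self (y : Y) {W : Y'.Opens} (hy : W ≤ f ⁻¹ᵁ c.U y) : tg f c y y hy hy = 1 := by
  have h := tg_mul f c y y y hy hy hy
  have hu : IsUnit (tg f c y y hy hy) := (Units.isUnit (c.g y y)).map _
  exact hu.mul_left_cancel (by rw [h, mul_one])

lemma tg_symm (y z : Y) {W : Y'.Opens} (hy : W ≤ f ⁻¹ᵁ c.U y) (hz : W ≤ f ⁻¹ᵁ c.U z) :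
    tg f c y z hy hz * tg f c z y hz hy = 1 := by
  rw [tg_mul, tg_self]

lemma isUnit_tg (y z : Y) {W : Y'.Opens} (hy : W ≤ f ⁻¹ᵁ c.U y) (hz : W ≤ f ⁻¹ᵁ c.U z) :
    IsUnit (tg f c y z hy hz) :=
  (Units.isUnit (c.g y z)).map _

/-- A twisted family: a global section of the pull-back along `f` of the line bundle of `c`,
given in all charts `f⁻¹ U_y`. -/
def IsTw (σ : ∀ y : Y, Γ(Y', f ⁻¹ᵁ c.U y)) : Prop :=
  ∀ y z : Y, tg f c y z (inf_le_left : f ⁻¹ᵁ c.U y ⊓ f ⁻¹ᵁ c.U z ≤ _) inf_le_right *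
    rr inf_le_right (σ z) = rr inf_le_left (σ y)

variable {f c}

lemma IsTw.on {σ : ∀ y : Y, Γ(Y', f ⁻¹ᵁ c.U y)} (hσ : IsTw f c σ) (y z : Y) {W : Y'.Opens}
    (hy : W ≤ f ⁻¹ᵁ c.U y) (hz : W ≤ f ⁻¹ᵁ c.U z) :
    tg f c y z hy hz * rr hz (σ z) = rr hy (σ y) := by
  have := congrArg (rr (le_inf hy hz : W ≤ f ⁻¹ᵁ c.U y ⊓ f ⁻¹ᵁ c.U z)) (hσ y z)
  simpa only [map_mul, rr_tg, rr_rr] using this

/-- **Extension from a refinement.**  A family of local sections on a cover `W a` subordinate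
to the charts `f⁻¹ U_{ρ a}`, compatible through the transition functions, extends uniquely to a
twisted family; it consists of units if the local sections are units. -/
theorem exists_twisted {J : Type u} (W : J → Y'.Opens) (ρ : J → Y)
    (hW : ∀ a, W a ≤ f ⁻¹ᵁ c.U (ρ a)) (hcov : ∀ y' : Y', ∃ a, y' ∈ W a)
    (s : ∀ a, Γ(Y', W a))
    (hs : ∀ a b, tg f c (ρ a) (ρ b) (inf_le_left.trans (hW a)) (inf_le_right.trans (hW b)) *
      rr (inf_le_right : W a ⊓ W b ≤ W b) (s b) = rr (inf_le_left : W a ⊓ W b ≤ W a) (s a)) :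
    ∃ σ : ∀ y : Y, Γ(Y', f ⁻¹ᵁ c.U y), IsTw f c σ ∧ (∀ a, rr (hW a) (σ (ρ a)) = s a) ∧
      ((∀ a, IsUnit (s a)) → ∀ y, IsUnit (σ y)) := by
  -- the relation on any open inside `W a ⊓ W b`
  have hs' : ∀ (a b : J) {V : Y'.Opens} (ha : V ≤ W a) (hb : V ≤ W b),
      tg f c (ρ a) (ρ b) (ha.trans (hW a)) (hb.trans (hW b)) * rr hb (s b) = rr ha (s a) := by
    intro a b V ha hb
    have := congrArg (rr (le_inf ha hb : V ≤ W a ⊓ W b)) (hs a b)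
    simpa only [map_mul, rr_tg, rr_rr] using this
  -- local pieces of `σ y`
  let τ : ∀ (y : Y) (a : J), Γ(Y', f ⁻¹ᵁ c.U y ⊓ W a) := fun y a =>
    tg f c y (ρ a) inf_le_left (inf_le_right.trans (hW a)) * rr inf_le_right (s a)
  have hτ : ∀ (y : Y) (a : J) {V : Y'.Opens} (hy : V ≤ f ⁻¹ᵁ c.U y) (ha : V ≤ W a),
      rr (le_inf hy ha) (τ y a) = tg f c y (ρ a) hy (ha.trans (hW a)) * rr ha (s a) := by
    intro y a V hy ha
    simp only [τ, map_mul, rr_tg, rr_rr]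
  have hcompat : ∀ (y : Y) (a b : J),
      rr (inf_le_left : (f ⁻¹ᵁ c.U y ⊓ W a) ⊓ (f ⁻¹ᵁ c.U y ⊓ W b) ≤ _) (τ y a) =
        rr inf_le_right (τ y b) := by
    intro y a b
    have h1 := hτ y a (V := (f ⁻¹ᵁ c.U y ⊓ W a) ⊓ (f ⁻¹ᵁ c.U y ⊓ W b))
      (inf_le_left.trans inf_le_left) (inf_le_left.trans inf_le_right)
    have h2 := hτ y b (V := (f ⁻¹ᵁ c.U y ⊓ W a) ⊓ (f ⁻¹ᵁ c.U y ⊓ W b))
      (inf_le_left.trans inf_le_left) (inf_le_right.trans inf_le_right)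
    rw [h1, h2, ← hs' a b (inf_le_left.trans inf_le_right) (inf_le_right.trans inf_le_right),
      ← mul_assoc, tg_mul]
  have hcovy : ∀ y : Y, f ⁻¹ᵁ c.U y ≤ ⨆ a, f ⁻¹ᵁ c.U y ⊓ W a := by
    intro y y' hy'
    obtain ⟨a, ha⟩ := hcov y'
    exact Opens.mem_iSup.mpr ⟨a, hy', ha⟩
  choose σ hσ using fun y => exists_glue (fun a => f ⁻¹ᵁ c.U y ⊓ W a) (fun a => inf_le_left)
    (hcovy y) (τ y) (hcompat y)
  -- values of `σ` on any open inside a chart and a member of the cover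
  have hσ' : ∀ (y : Y) (a : J) {V : Y'.Opens} (hy : V ≤ f ⁻¹ᵁ c.U y) (ha : V ≤ W a),
      rr hy (σ y) = tg f c y (ρ a) hy (ha.trans (hW a)) * rr ha (s a) := by
    intro y a V hy ha
    rw [← hτ y a hy ha, ← hσ y a, rr_rr]
  refine ⟨σ, ?_, ?_, ?_⟩
  · intro y z
    refine ext_of_cover (fun a => (f ⁻¹ᵁ c.U y ⊓ f ⁻¹ᵁ c.U z) ⊓ W a) (fun a => inf_le_left)
      (fun y' hy' => ?_) _ _ fun a => ?_
    · obtain ⟨a, ha⟩ := hcov y'
      exact Opens.mem_iSup.mpr ⟨a, hy', ha⟩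
    · simp only [map_mul, rr_tg, rr_rr]
      rw [hσ' z a (inf_le_left.trans inf_le_right) inf_le_right,
        hσ' y a (inf_le_left.trans inf_le_left) inf_le_right, ← mul_assoc, tg_mul]
  · intro a
    rw [hσ' (ρ a) a (hW a) le_rfl, tg_self, one_mul, rr_self]
  · intro hu y
    refine isUnit_of_cover (fun a => f ⁻¹ᵁ c.U y ⊓ W a) (fun a => inf_le_left) (hcovy y) _
      fun a => ?_
    rw [hσ' y a inf_le_left inf_le_right]
    exact (isUnit_tg f c _ _ _ _).mul ((hu a).map _)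

end

end Fermat.Agent.S26.H605
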